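import Mathlib
import Fermat.Agent.MU.S56.TW.Hyp

section MergeWrap_S56_TW_Ad0Irr_LinAlg -- from S56/TW/Ad0Irr/LinAlg.lean

set_option autoImplicit false
set_option linter.style.haveILetI false

namespace Fermat.Agent.S56.TW

open Polynomial
open scoped TensorProduct

section Plane

variable {K : Type*} [Field K] {U : Type*} [AddCommGroup U] [Module K U]

/-- Cayley-Hamilton for a trace-zero endomorphism of a plane. -/
theorem ad0irr_sq_eq_smul (hU : Module.finrank K U = 2) (A : Module.End K U)
    (htr : LinearMap.trace K U A = 0) : A * A = (-LinearMap.det A) • (1 : Module.End K U) := by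
  haveI : Module.Finite K U := Module.finite_of_finrank_eq_succ hU
  let b := Module.finBasisOfFinrankEq K U hU
  have h1 := LinearMap.aeval_self_charpoly A
  have h2 : A.charpoly = X ^ 2 - C (LinearMap.trace K U A) * X + C (LinearMap.det A) := by
    rw [← LinearMap.charpoly_toMatrix A b, Matrix.charpoly_fin_two,
      ← LinearMap.trace_eq_matrix_trace, LinearMap.det_toMatrix]
  rw [h2, htr, map_zero, zero_mul, sub_zero, map_add, map_pow, aeval_X, aeval_C] at h1
  rw [neg_smul, eq_neg_iff_add_eq_zero, ← h1, pow_two, Algebra.algebraMap_eq_smul_one]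

/-- The trace of a scalar endomorphism of a plane. -/
theorem ad0irr_trace_smul_one (hU : Module.finrank K U = 2) (μ : K) :
    LinearMap.trace K U (μ • (1 : Module.End K U)) = 2 * μ := by
  haveI : Module.Finite K U := Module.finite_of_finrank_eq_succ hU
  rw [map_smul, LinearMap.trace_one, hU, smul_eq_mul, mul_comm]
  norm_num

end Plane

section BaseChange

variable {k : Type*} [Field k] {V : Type*} [AddCommGroup V] [Module k V]
  (K : Type*) [Field K] [Algebra k K]

/-- Base change of endomorphisms is injective. -/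
theorem ad0irr_baseChange_eq_zero [Module.Finite k V] (A : Module.End k V)
    (h : A.baseChange K = 0) : A = 0 := by
  classical
  let b := Module.finBasis k V
  have h1 := LinearMap.toMatrix_baseChange K A b b
  rw [h, map_zero] at h1
  have h2 : LinearMap.toMatrix b b A = 0 := by
    ext i j
    have := congrFun (congrFun h1 i) j
    simp only [Matrix.zero_apply, Matrix.map_apply] at this
    rw [Matrix.zero_apply]
    exact (map_eq_zero (algebraMap k K)).1 this.symm
  exact (LinearMap.toMatrix b b).injective (by rw [h2, map_zero])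

/-- A nonzero trace-zero endomorphism of a plane is not a scalar, even after base change. -/
theorem ad0irr_baseChange_ne_smul (hV : Module.finrank k V = 2) (h2 : (2 : K) ≠ 0)
    (A : Module.End k V) (hA : A ≠ 0) (htr : LinearMap.trace k V A = 0) (μ : K) :
    A.baseChange K ≠ μ • (1 : Module.End K (K ⊗[k] V)) := by
  haveI : Module.Finite k V := Module.finite_of_finrank_eq_succ hV
  intro h
  have hVK : Module.finrank K (K ⊗[k] V) = 2 := by
    rw [Module.finrank_baseChange, hV]
  have h1 := LinearMap.trace_baseChange A K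
  rw [h, ad0irr_trace_smul_one hVK, htr, map_zero] at h1
  have hμ : μ = 0 := by
    rcases mul_eq_zero.1 h1 with h | h
    · exact absurd h h2
    · exact h
  rw [hμ, zero_smul] at h
  exact hA (ad0irr_baseChange_eq_zero K A h)

end BaseChange

section Dim

variable {k : Type*} [Field k] {V : Type*} [AddCommGroup V] [Module k V]

/-- The trace-zero endomorphisms of a plane form a `3`-dimensional space. -/
theorem ad0irr_finrank_ker_trace (hV : Module.finrank k V = 2) (h2 : (2 : k) ≠ 0) :
    Module.finrank k (LinearMap.ker (LinearMap.trace k V)) = 3 := by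
  haveI : Module.Finite k V := Module.finite_of_finrank_eq_succ hV
  have h1 := LinearMap.finrank_range_add_finrank_ker (LinearMap.trace k V)
  have h4 : Module.finrank k (Module.End k V) = 4 := by
    rw [Module.finrank_linearMap, hV]
  have hsurj : Function.Surjective (LinearMap.trace k V) := by
    intro c
    refine ⟨(c / 2) • (1 : Module.End k V), ?_⟩
    rw [ad0irr_trace_smul_one hV]
    field_simp
  have hr : Module.finrank k (LinearMap.range (LinearMap.trace k V)) = 1 := by
    rw [LinearMap.range_eq_top.2 hsurj, finrank_top, Module.finrank_self]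
  rw [hr, h4] at h1
  omega

end Dim

end Fermat.Agent.S56.TW
end MergeWrap_S56_TW_Ad0Irr_LinAlg

section MergeWrap_S56_TW_Ad0Irr_Line -- from S56/TW/Ad0Irr/Line.lean

set_option autoImplicit false
set_option linter.style.haveILetI false

namespace Fermat.Agent.S56.TW

open Fermat.Agent.F4 Polynomial
open scoped TensorProduct

variable {k : Type} [Field k]

theorem ad0irr_two_ne_zero {p : ℕ} {ρbar : ResidualGaloisRep k} (H : Hyp p ρbar) :
    (2 : k) ≠ 0 := by
  intro h2
  obtain ⟨m, hm⟩ := H.prime.odd_of_ne_two H.odd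
  have h1 := H.char
  rw [hm] at h1
  push_cast at h1
  rw [h2, zero_mul, zero_add] at h1
  exact one_ne_zero h1

theorem ad0irr_ρ_mul_inv (ρbar : ResidualGaloisRep k) (g : GQ) :
    ρbar.ρ g * ρbar.ρ g⁻¹ = 1 := by
  rw [← map_mul, mul_inv_cancel, map_one]

theorem ad0irr_ρ_inv_mul (ρbar : ResidualGaloisRep k) (g : GQ) :
    ρbar.ρ g⁻¹ * ρbar.ρ g = 1 := by
  rw [← map_mul, inv_mul_cancel, map_one]

/-- From `ρ(g) A ρ(g)⁻¹ = c A` to `ρ(g) A = c (A ρ(g))`. -/
theorem ad0irr_mul_eq_of_conj (ρbar : ResidualGaloisRep k) (A : Module.End k ρbar.V) (g : GQ)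
    (c : k) (h : ρbar.ρ g * A * ρbar.ρ g⁻¹ = c • A) : ρbar.ρ g * A = c • (A * ρbar.ρ g) := by
  have h1 := congrArg (fun x => x * ρbar.ρ g) h
  simp only [mul_assoc, ad0irr_ρ_inv_mul, mul_one, smul_mul_assoc] at h1
  exact h1

/-- Dichotomy: in the non-nilpotent case every `g` commutes or anticommutes with `A`. -/
theorem ad0irr_comm_or_anticomm (ρbar : ResidualGaloisRep k) (A : Module.End k ρbar.V)
    (c : k) (hc : c ≠ 0) (hsq : A * A = c • (1 : Module.End k ρbar.V))
    (hst : ∀ g : GQ, ∃ c' : k, ρbar.ρ g * A * ρbar.ρ g⁻¹ = c' • A) (g : GQ) :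
    ρbar.ρ g * A = A * ρbar.ρ g ∨ ρbar.ρ g * A = -(A * ρbar.ρ g) := by
  obtain ⟨c', hc'⟩ := hst g
  have h1 := ad0irr_mul_eq_of_conj ρbar A g c' hc'
  have hone : (1 : Module.End k ρbar.V) ≠ 0 := by
    haveI : Nontrivial ρbar.V :=
      Module.nontrivial_of_finrank_pos (R := k) (by rw [ρbar.finrank_eq]; norm_num)
    obtain ⟨v, hv⟩ := exists_ne (0 : ρbar.V)
    intro h
    exact hv (by simpa using LinearMap.congr_fun h v)
  -- square the conjugation relation
  have h4 : (c' • A) * (c' • A) = c • (1 : Module.End k ρbar.V) := by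
    rw [← hc']
    calc ρbar.ρ g * A * ρbar.ρ g⁻¹ * (ρbar.ρ g * A * ρbar.ρ g⁻¹)
        = ρbar.ρ g * A * (ρbar.ρ g⁻¹ * ρbar.ρ g) * A * ρbar.ρ g⁻¹ := by simp only [mul_assoc]
      _ = ρbar.ρ g * (A * A) * ρbar.ρ g⁻¹ := by
          rw [ad0irr_ρ_inv_mul, mul_one, mul_assoc (ρbar.ρ g)]
      _ = c • (1 : Module.End k ρbar.V) := by
          rw [hsq, mul_smul_comm, mul_one, smul_mul_assoc, ad0irr_ρ_mul_inv]
  rw [smul_mul_smul_comm, hsq, smul_smul] at h4
  have h5 : (c' * c' * c - c) • (1 : Module.End k ρbar.V) = 0 := by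
    rw [sub_smul, h4, sub_self]
  have h6 : c' * c' * c - c = 0 := by
    rcases smul_eq_zero.1 h5 with h | h
    · exact h
    · exact absurd h hone
  have h7 : (c' - 1) * (c' + 1) = 0 := by
    have : (c' * c' - 1) * c = 0 := by rw [sub_mul, one_mul]; exact h6
    rcases mul_eq_zero.1 this with h | h
    · rw [← h]; ring
    · exact absurd h hc
  rcases mul_eq_zero.1 h7 with h | h
  · left
    rw [h1, sub_eq_zero.1 h, one_smul]
  · right
    rw [h1, eq_neg_of_add_eq_zero_left h, neg_smul, one_smul]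

/-- The centraliser of `A` in `G_ℚ`. -/
def ad0irrCentralizer (ρbar : ResidualGaloisRep k) (A : Module.End k ρbar.V) : Subgroup GQ where
  carrier := {g | ρbar.ρ g * A = A * ρbar.ρ g}
  one_mem' := by
    show ρbar.ρ 1 * A = A * ρbar.ρ 1
    rw [map_one, one_mul, mul_one]
  mul_mem' := by
    intro g h hg hh
    show ρbar.ρ (g * h) * A = A * ρbar.ρ (g * h)
    have hg' : ρbar.ρ g * A = A * ρbar.ρ g := hg
    have hh' : ρbar.ρ h * A = A * ρbar.ρ h := hh
    rw [map_mul, mul_assoc, hh', ← mul_assoc, hg', mul_assoc]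
  inv_mem' := by
    intro g hg
    show ρbar.ρ g⁻¹ * A = A * ρbar.ρ g⁻¹
    have hg' : ρbar.ρ g * A = A * ρbar.ρ g := hg
    calc ρbar.ρ g⁻¹ * A = ρbar.ρ g⁻¹ * A * (ρbar.ρ g * ρbar.ρ g⁻¹) := by
          rw [ad0irr_ρ_mul_inv, mul_one]
      _ = ρbar.ρ g⁻¹ * (A * ρbar.ρ g) * ρbar.ρ g⁻¹ := by simp only [mul_assoc]
      _ = ρbar.ρ g⁻¹ * (ρbar.ρ g * A) * ρbar.ρ g⁻¹ := by rw [hg']
      _ = (ρbar.ρ g⁻¹ * ρbar.ρ g) * A * ρbar.ρ g⁻¹ := by simp only [mul_assoc]
      _ = A * ρbar.ρ g⁻¹ := by rw [ad0irr_ρ_inv_mul, one_mul]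

theorem mem_ad0irrCentralizer {ρbar : ResidualGaloisRep k} {A : Module.End k ρbar.V} {g : GQ} :
    g ∈ ad0irrCentralizer ρbar A ↔ ρbar.ρ g * A = A * ρbar.ρ g := Iff.rfl

/-- There is no conjugation-stable line of trace-zero endomorphisms. -/
theorem ad0irr_no_stable_line {p : ℕ} {ρbar : ResidualGaloisRep k} (H : Hyp p ρbar)
    (A : Module.End k ρbar.V) (hA0 : A ≠ 0) (htr : LinearMap.trace k ρbar.V A = 0)
    (hst : ∀ g : GQ, ∃ c : k, ρbar.ρ g * A * ρbar.ρ g⁻¹ = c • A) : False := by
  have h2 : (2 : k) ≠ 0 := ad0irr_two_ne_zero H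
  have h2K : (2 : AlgebraicClosure k) ≠ 0 := by
    intro h
    apply h2
    have h3 : algebraMap k (AlgebraicClosure k) 2 = 0 := by rw [map_ofNat]; exact h
    exact (map_eq_zero (algebraMap k (AlgebraicClosure k))).1 h3
  have hsq := ad0irr_sq_eq_smul ρbar.finrank_eq A htr
  set c : k := -LinearMap.det A with hcdef
  obtain ⟨μ, hμ⟩ := IsAlgClosed.exists_pow_nat_eq (algebraMap k (AlgebraicClosure k) c)
    (n := 2) two_pos
  set AK : Module.End (AlgebraicClosure k) (AlgebraicClosure k ⊗[k] ρbar.V) :=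
    A.baseChange (AlgebraicClosure k) with hAK
  have hsqK : AK * AK = (μ ^ 2) • (1 : Module.End (AlgebraicClosure k)
      (AlgebraicClosure k ⊗[k] ρbar.V)) := by
    rw [hAK, ← LinearMap.baseChange_mul, hsq, LinearMap.baseChange_smul,
      LinearMap.baseChange_one, hμ, algebraMap_smul]
  set L : Submodule (AlgebraicClosure k) (AlgebraicClosure k ⊗[k] ρbar.V) :=
    LinearMap.ker (AK - μ • (1 : Module.End (AlgebraicClosure k)
      (AlgebraicClosure k ⊗[k] ρbar.V))) with hL
  have hLtop : L ≠ ⊤ := by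
    intro h
    have h1 : AK - μ • (1 : Module.End (AlgebraicClosure k)
        (AlgebraicClosure k ⊗[k] ρbar.V)) = 0 := LinearMap.ker_eq_top.1 h
    exact ad0irr_baseChange_ne_smul (AlgebraicClosure k) ρbar.finrank_eq h2K A hA0 htr μ
      (sub_eq_zero.1 h1)
  have hLbot : L ≠ ⊥ := by
    intro h
    have hinj : Function.Injective (AK - μ • (1 : Module.End (AlgebraicClosure k)
        (AlgebraicClosure k ⊗[k] ρbar.V))) := LinearMap.ker_eq_bot.1 h
    have hprod : ∀ x : AlgebraicClosure k ⊗[k] ρbar.V,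
        (AK - μ • (1 : Module.End (AlgebraicClosure k)
          (AlgebraicClosure k ⊗[k] ρbar.V))) (AK x + μ • x) = 0 := by
      intro x
      have h3 := LinearMap.congr_fun hsqK x
      rw [Module.End.mul_apply, LinearMap.smul_apply, Module.End.one_apply] at h3
      rw [LinearMap.sub_apply, LinearMap.smul_apply, Module.End.one_apply, map_add, map_smul,
        h3, smul_add, pow_two, mul_smul]
      abel
    have h1 : ∀ x : AlgebraicClosure k ⊗[k] ρbar.V, AK x + μ • x = 0 := by
      intro x
      apply hinj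
      rw [map_zero]
      exact hprod x
    refine ad0irr_baseChange_ne_smul (AlgebraicClosure k) ρbar.finrank_eq h2K A hA0 htr (-μ) ?_
    refine LinearMap.ext fun x => ?_
    rw [LinearMap.smul_apply, Module.End.one_apply, neg_smul]
    exact eq_neg_of_add_eq_zero_left (h1 x)
  -- elements with `A ρ(g) = c' ρ(g) A` and `c' μ = μ` stabilise `L`
  have hstab : ∀ (g : GQ) (c' : k), A * ρbar.ρ g = c' • (ρbar.ρ g * A) →
      algebraMap k (AlgebraicClosure k) c' * μ = μ →
      ∀ x ∈ L, (ρbar.baseChange (AlgebraicClosure k)).ρ g x ∈ L := by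
    intro g c' hg hcμ x hx
    have hgK : AK * (ρbar.ρ g).baseChange (AlgebraicClosure k) =
        algebraMap k (AlgebraicClosure k) c' • ((ρbar.ρ g).baseChange (AlgebraicClosure k) * AK) := by
      rw [hAK, ← LinearMap.baseChange_mul, hg, LinearMap.baseChange_smul,
        LinearMap.baseChange_mul, algebraMap_smul]
    have hx' : AK x = μ • x := by
      have := (LinearMap.mem_ker).1 hx
      rw [LinearMap.sub_apply, LinearMap.smul_apply, Module.End.one_apply, sub_eq_zero] at this
      exact this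
    rw [hL, LinearMap.mem_ker, LinearMap.sub_apply, LinearMap.smul_apply, Module.End.one_apply,
      sub_eq_zero]
    show AK ((ρbar.ρ g).baseChange (AlgebraicClosure k) x) = _
    have h1 := LinearMap.congr_fun hgK x
    rw [Module.End.mul_apply, LinearMap.smul_apply, Module.End.mul_apply, hx', map_smul,
      smul_smul, hcμ] at h1
    exact h1
  by_cases hc : c = 0
  · -- nilpotent case
    have hμ0 : μ = 0 := by
      rw [hc, map_zero] at hμ
      exact pow_eq_zero_iff (two_ne_zero) |>.1 hμ
    have hLst : ∀ g : GQ, ∀ x ∈ L, (ρbar.baseChange (AlgebraicClosure k)).ρ g x ∈ L := by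
      intro g x hx
      obtain ⟨c', hc'⟩ := hst g⁻¹
      rw [inv_inv] at hc'
      refine hstab g c' ?_ (by rw [hμ0, mul_zero]) x hx
      calc A * ρbar.ρ g = (ρbar.ρ g * ρbar.ρ g⁻¹) * A * ρbar.ρ g := by
            rw [ad0irr_ρ_mul_inv, one_mul]
        _ = ρbar.ρ g * (ρbar.ρ g⁻¹ * A * ρbar.ρ g) := by simp only [mul_assoc]
        _ = c' • (ρbar.ρ g * A) := by rw [hc', mul_smul_comm]
    rcases H.habs L hLst with h | h
    exacts [hLbot h, hLtop h]
  · -- semisimple case
    have hdich := ad0irr_comm_or_anticomm ρbar A c hc hsq hst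
    have hG₀st : ∀ g ∈ ad0irrCentralizer ρbar A, ∀ x ∈ L,
        (ρbar.baseChange (AlgebraicClosure k)).ρ g x ∈ L := by
      intro g hg x hx
      refine hstab g 1 ?_ (by rw [map_one, one_mul]) x hx
      rw [one_smul]
      exact (mem_ad0irrCentralizer.1 hg).symm
    by_cases hall : ∀ g : GQ, g ∈ ad0irrCentralizer ρbar A
    · rcases H.habs L (fun g x hx => hG₀st g (hall g) x hx) with h | h
      exacts [hLbot h, hLtop h]
    · push Not at hall
      obtain ⟨a, ha⟩ := hall
      have hAne : ∀ g : GQ, A * ρbar.ρ g ≠ 0 := by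
        intro g h
        apply hA0
        have := congrArg (fun x => x * ρbar.ρ g⁻¹) h
        simpa [mul_assoc, ad0irr_ρ_mul_inv] using this
      have hnot : ∀ g : GQ, ρbar.ρ g * A = -(A * ρbar.ρ g) → g ∉ ad0irrCentralizer ρbar A := by
        intro g hg hmem
        have h1 : A * ρbar.ρ g = -(A * ρbar.ρ g) :=
          (mem_ad0irrCentralizer.1 hmem).symm.trans hg
        have h3 : (2 : k) • (A * ρbar.ρ g) = 0 := by
          rw [two_smul]
          nth_rewrite 1 [h1]
          exact neg_add_cancel _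
        rcases smul_eq_zero.1 h3 with h | h
        · exact h2 h
        · exact hAne g h
      have haa : ρbar.ρ a * A = -(A * ρbar.ρ a) := by
        rcases hdich a with h | h
        · exact absurd (mem_ad0irrCentralizer.2 h) ha
        · exact h
      have hidx : (ad0irrCentralizer ρbar A).index = 2 := by
        rw [Subgroup.index_eq_two_iff]
        refine ⟨a, fun b => ?_⟩
        rcases hdich b with hb | hb
        · -- `b` commutes: `b a` anticommutes
          refine Or.inr ⟨mem_ad0irrCentralizer.2 hb, hnot (b * a) ?_⟩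
          rw [map_mul, mul_assoc, haa, mul_neg, ← mul_assoc, hb, mul_assoc]
        · -- `b` anticommutes: `b a` commutes
          refine Or.inl ⟨mem_ad0irrCentralizer.2 ?_, hnot b hb⟩
          rw [map_mul, mul_assoc, haa, mul_neg, ← mul_assoc, hb, neg_mul, neg_neg, mul_assoc]
      rcases H.hTW (AlgebraicClosure k) (ad0irrCentralizer ρbar A) hidx L hG₀st with h | h
      exacts [hLbot h, hLtop h]

end Fermat.Agent.S56.TW
end MergeWrap_S56_TW_Ad0Irr_Line
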